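import Fermat.Agent.GT.Iface
import Fermat.Agent.GR.E.BR7
import Fermat.Prelude.Def_EllipticCurve_FrobeniusTrace

/-!
# Project GT: the base field package (B1)

`inertField A` is the fixed field of the inertia group of `A`; `hull A L` is the largest subfield of
the normal closure of `L` which is fixed by the inertia group.  It is finite over `ℚ`, fixed by
inertia and stable under the whole decomposition group, so a Frobenius element restricts to an
automorphism `hullAut` of it.
-/

set_option autoImplicit false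
set_option synthInstance.maxHeartbeats 400000

noncomputable section

namespace Fermat.Agent.GT

open Fermat.Agent.GR Fermat.Agent.GR.E IntermediateField

/-- The fixed field of the inertia group. -/
def inertField (A : ValuationSubring Qb) : IntermediateField ℚ Qb :=
  IntermediateField.fixedField (A.inertiaSubgroupIn ℚ)

theorem mem_inertField {A : ValuationSubring Qb} {x : Qb} :
    x ∈ inertField A ↔ ∀ τ : Qb ≃ₐ[ℚ] Qb, τ ∈ A.inertiaSubgroupIn ℚ → τ x = x := by
  unfold inertField
  rw [IntermediateField.mem_fixedField_iff]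

theorem inertFixed_iff {A : ValuationSubring Qb} {L : IntermediateField ℚ Qb} :
    InertFixed A L ↔ L ≤ inertField A := by
  constructor
  · intro h x hx
    rw [mem_inertField]
    intro τ hτ
    exact h τ hτ ⟨x, hx⟩
  · intro h τ hτ x
    exact mem_inertField.1 (h x.2) τ hτ

/-- The inertia group is normalised by the decomposition group. -/
theorem conj_mem_inertiaSubgroupIn {A : ValuationSubring Qb} {σ τ : Qb ≃ₐ[ℚ] Qb}
    (hσ : σ ∈ A.decompositionSubgroup ℚ) (hτ : τ ∈ A.inertiaSubgroupIn ℚ) :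
    σ⁻¹ * τ * σ ∈ A.inertiaSubgroupIn ℚ := by
  obtain ⟨t, ht, rfl⟩ := hτ
  have hn : (A.inertiaSubgroup ℚ).Normal := by
    unfold ValuationSubring.inertiaSubgroup
    infer_instance
  refine ⟨(⟨σ, hσ⟩ : A.decompositionSubgroup ℚ)⁻¹ * t * ⟨σ, hσ⟩, ?_, rfl⟩
  have := hn.conj_mem t ht (⟨σ, hσ⟩ : A.decompositionSubgroup ℚ)⁻¹
  simpa using this

theorem map_mem_inertField {A : ValuationSubring Qb} {σ : Qb ≃ₐ[ℚ] Qb}
    (hσ : σ ∈ A.decompositionSubgroup ℚ) {x : Qb} (hx : x ∈ inertField A) :
    σ x ∈ inertField A := by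
  rw [mem_inertField] at hx ⊢
  intro τ hτ
  have h := hx _ (conj_mem_inertiaSubgroupIn hσ hτ)
  have h2 : σ ((σ⁻¹ * τ * σ) x) = τ (σ x) := by
    simp [AlgEquiv.mul_apply]
  rw [← h2, h]

/-- The hull of `L`. -/
def hull (A : ValuationSubring Qb) (L : IntermediateField ℚ Qb) : IntermediateField ℚ Qb :=
  IntermediateField.normalClosure ℚ L Qb ⊓ inertField A

theorem le_hull {A : ValuationSubring Qb} {L : IntermediateField ℚ Qb} (h : InertFixed A L) :
    L ≤ hull A L :=
  le_inf (IntermediateField.le_normalClosure L) (inertFixed_iff.1 h)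

theorem inertFixed_hull (A : ValuationSubring Qb) (L : IntermediateField ℚ Qb) :
    InertFixed A (hull A L) :=
  inertFixed_iff.2 inf_le_right

theorem base_normal_Qb' [alg : Algebra ℚ (AlgebraicClosure ℚ)] :
    Normal ℚ (AlgebraicClosure ℚ) := by
  obtain rfl : alg = AlgebraicClosure.instAlgebra ℚ := Subsingleton.elim _ _
  infer_instance

theorem base_normal_Qb : Normal ℚ Qb := base_normal_Qb'

instance finiteDimensional_hull (A : ValuationSubring Qb) (L : IntermediateField ℚ Qb)
    [FiniteDimensional ℚ L] : FiniteDimensional ℚ (hull A L) := by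
  have h1 : FiniteDimensional ℚ (IntermediateField.normalClosure ℚ L Qb) :=
    normalClosure.is_finiteDimensional ℚ L Qb
  have hle : hull A L ≤ IntermediateField.normalClosure ℚ L Qb := inf_le_left
  exact FiniteDimensional.of_injective (IntermediateField.inclusion hle).toLinearMap
    (IntermediateField.inclusion hle).injective

theorem map_mem_hull {A : ValuationSubring Qb} {L : IntermediateField ℚ Qb} {σ : Qb ≃ₐ[ℚ] Qb}
    (hσ : σ ∈ A.decompositionSubgroup ℚ) {x : Qb} (hx : x ∈ hull A L) : σ x ∈ hull A L := by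
  obtain ⟨h1, h2⟩ := IntermediateField.mem_inf.1 hx
  refine IntermediateField.mem_inf.2 ⟨?_, map_mem_inertField hσ h2⟩
  have hQ : Normal ℚ Qb := base_normal_Qb
  have hN : Normal ℚ (IntermediateField.normalClosure ℚ L Qb) := normalClosure.normal ℚ L Qb
  have := (IntermediateField.normal_iff_forall_map_le'.1 hN) σ
  exact this ⟨x, h1, rfl⟩

/-- The automorphism of the hull induced by an element of the decomposition group. -/
def hullAut {A : ValuationSubring Qb} (L : IntermediateField ℚ Qb) {σ : Qb ≃ₐ[ℚ] Qb}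
    (hσ : σ ∈ A.decompositionSubgroup ℚ) : hull A L ≃ₐ[ℚ] hull A L :=
  AlgEquiv.ofAlgHom
    ((σ.toAlgHom.comp (hull A L).val).codRestrict (hull A L).toSubalgebra
      (fun x => map_mem_hull hσ x.2))
    ((σ.symm.toAlgHom.comp (hull A L).val).codRestrict (hull A L).toSubalgebra
      (fun x => map_mem_hull (L := L) ((A.decompositionSubgroup ℚ).inv_mem hσ) x.2))
    (by
      ext x
      exact σ.apply_symm_apply (x : Qb))
    (by
      ext x
      exact σ.symm_apply_apply (x : Qb))

@[simp] theorem coe_hullAut {A : ValuationSubring Qb} (L : IntermediateField ℚ Qb)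
    {σ : Qb ≃ₐ[ℚ] Qb} (hσ : σ ∈ A.decompositionSubgroup ℚ) (x : hull A L) :
    ((hullAut L hσ x : hull A L) : Qb) = σ (x : Qb) := rfl

theorem map_mem_of_mem_decomposition {A : ValuationSubring Qb} {σ : Qb ≃ₐ[ℚ] Qb}
    (hσ : σ ∈ A.decompositionSubgroup ℚ) {x : Qb} (hx : x ∈ A) : σ x ∈ A :=
  ((⟨σ, hσ⟩ : A.decompositionSubgroup ℚ) • (⟨x, hx⟩ : A)).2

/-- `hullAut` preserves the valuation ring `A ∩ hull`. -/
theorem hullAut_mem_comap {A : ValuationSubring Qb} (L : IntermediateField ℚ Qb)
    {σ : Qb ≃ₐ[ℚ] Qb} (hσ : σ ∈ A.decompositionSubgroup ℚ) (x : hull A L) :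
    hullAut L hσ x ∈ A.comap (algebraMap (hull A L) Qb) ↔
      x ∈ A.comap (algebraMap (hull A L) Qb) := by
  constructor
  · intro h
    have h1 : σ (x : Qb) ∈ A := h
    have h2 := map_mem_of_mem_decomposition ((A.decompositionSubgroup ℚ).inv_mem hσ) h1
    have h3 : σ⁻¹ (σ (x : Qb)) = x := σ.symm_apply_apply _
    rw [h3] at h2
    exact h2
  · intro h
    exact map_mem_of_mem_decomposition hσ h

/-- The Frobenius congruence in `A`. -/
theorem frob_sub_pow_mem_nonunits {A : ValuationSubring Qb} {q : ℕ} {φ : Qb ≃ₐ[ℚ] Qb}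
    (hφ : A.IsFrobeniusAt φ q) {x : Qb} (hx : x ∈ A) : φ x - x ^ q ∈ A.nonunits := by
  have h2 := hφ.smul_residue_eq (IsLocalRing.residue A ⟨x, hx⟩)
  rw [← IsLocalRing.ResidueField.residue_smul, ← map_pow, ← sub_eq_zero, ← map_sub,
    IsLocalRing.residue_eq_zero_iff] at h2
  rw [ValuationSubring.mem_nonunits_iff_exists_mem_maximalIdeal]
  exact ⟨_, h2⟩

/-- The Frobenius congruence for `hullAut`. -/
theorem hullAut_sub_pow_mem_nonunits {A : ValuationSubring Qb} {q : ℕ}
    (L : IntermediateField ℚ Qb) {φ : Qb ≃ₐ[ℚ] Qb} (hφ : A.IsFrobeniusAt φ q) (x : hull A L)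
    (hx : x ∈ A.comap (algebraMap (hull A L) Qb)) :
    hullAut L hφ.mem_decompositionSubgroup x - x ^ q ∈
      (A.comap (algebraMap (hull A L) Qb)).nonunits := by
  rw [BR7_mem_nonunits_comap]
  exact frob_sub_pow_mem_nonunits hφ hx

/-- Enlarging: a finite extension generated by inertia-fixed elements. -/
theorem exists_base (A : ValuationSubring Qb) (L : IntermediateField ℚ Qb)
    [FiniteDimensional ℚ L] (hL : InertFixed A L) (S : Finset Qb)
    (hS : ∀ x ∈ S, x ∈ inertField A) :
    ∃ L' : IntermediateField ℚ Qb, FiniteDimensional ℚ L' ∧ InertFixed A L' ∧ L ≤ hull A L' ∧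
      ∀ x ∈ S, x ∈ hull A L' := by
  have halg : Algebra.IsAlgebraic ℚ Qb := base_normal_Qb.toIsAlgebraic
  refine ⟨L ⊔ IntermediateField.adjoin ℚ (S : Set Qb), ?_, ?_, ?_, ?_⟩
  · have : FiniteDimensional ℚ (IntermediateField.adjoin ℚ (S : Set Qb)) :=
      IntermediateField.finiteDimensional_adjoin (fun x _ => (halg.isAlgebraic x).isIntegral)
    exact IntermediateField.finiteDimensional_sup _ _
  · rw [inertFixed_iff]
    refine sup_le (inertFixed_iff.1 hL) ?_
    rw [IntermediateField.adjoin_le_iff]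
    exact fun x hx => hS x hx
  · refine le_trans le_sup_left (le_hull ?_)
    rw [inertFixed_iff]
    refine sup_le (inertFixed_iff.1 hL) ?_
    rw [IntermediateField.adjoin_le_iff]
    exact fun x hx => hS x hx
  · intro x hx
    have h1 : InertFixed A (L ⊔ IntermediateField.adjoin ℚ (S : Set Qb)) := by
      rw [inertFixed_iff]
      refine sup_le (inertFixed_iff.1 hL) ?_
      rw [IntermediateField.adjoin_le_iff]
      exact fun x hx => hS x hx
    exact le_hull h1 ((le_sup_right : _ ≤ L ⊔ IntermediateField.adjoin ℚ (S : Set Qb))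
      (IntermediateField.subset_adjoin ℚ _ hx))

/-- Under `UnramAt`, `q` is a uniformizer of `A ∩ L`. -/
theorem irreducible_natCast_of_unramAt {A : ValuationSubring Qb} {q : ℕ}
    (hA : A.LiesOverPrime q) (hq : q ≠ 0) {L : IntermediateField ℚ Qb} (h : UnramAt A q L) :
    Irreducible ((q : ℕ) : A.comap (algebraMap L Qb)) := by
  set R := A.comap (algebraMap L Qb) with hR
  have hq0 : ((q : ℕ) : Qb) ≠ 0 := Nat.cast_ne_zero.2 hq
  have hnon : ∀ x : R, ¬ IsUnit x ↔ algebraMap L Qb (x : L) ∈ A.nonunits := by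
    intro x
    rw [← BR7_mem_nonunits_comap, ValuationSubring.mem_nonunits_iff_exists_mem_maximalIdeal]
    constructor
    · intro hx
      exact ⟨x.2, (IsLocalRing.mem_maximalIdeal _).2 hx⟩
    · rintro ⟨_, hx⟩
      exact (IsLocalRing.mem_maximalIdeal _).1 hx
  have hdiv : ∀ x : R, ¬ IsUnit x → ((q : ℕ) : R) ∣ x := by
    intro x hx
    have h1 := h (x : L) ((hnon x).1 hx)
    have h2 : (x : L) / (q : L) ∈ R := by
      show algebraMap L Qb ((x : L) / (q : L)) ∈ A
      rw [map_div₀, map_natCast]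
      exact h1
    refine ⟨⟨_, h2⟩, ?_⟩
    apply Subtype.ext
    have hqL : ((q : ℕ) : L) ≠ 0 := Nat.cast_ne_zero.2 hq
    show (x : L) = ((q : ℕ) : L) * ((x : L) / (q : L))
    field_simp
  have hqn : ¬ IsUnit ((q : ℕ) : R) := by
    rw [hnon]
    have : algebraMap L Qb (((q : ℕ) : R) : L) = (q : Qb) := by
      show algebraMap L Qb ((q : ℕ) : L) = (q : Qb)
      rw [map_natCast]
    rw [this]
    exact hA
  have hqR : ((q : ℕ) : R) ≠ 0 := by
    intro h0
    have : (((q : ℕ) : R) : L) = 0 := by rw [h0]; rfl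
    have hqL : ((q : ℕ) : L) ≠ 0 := Nat.cast_ne_zero.2 hq
    exact hqL this
  refine ⟨hqn, ?_⟩
  intro a b hab
  by_contra hcon
  rw [not_or] at hcon
  obtain ⟨a', ha'⟩ := hdiv a hcon.1
  obtain ⟨b', hb'⟩ := hdiv b hcon.2
  apply hqn
  have h3 : ((q : ℕ) : R) * 1 = ((q : ℕ) : R) * (((q : ℕ) : R) * (a' * b')) := by
    rw [mul_one]
    conv_lhs => rw [hab, ha', hb']
    ring
  have h4 := mul_left_cancel₀ hqR h3
  exact IsUnit.of_mul_eq_one _ h4.symm

end Fermat.Agent.GT
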