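import Fermat.Agent.GR.E.BR3
import Fermat.Agent.GR.E.BR8

/-!
# Project GT (S36, Carayol at `q² ∥ M`): the interface between the geometry and the wiring

`CoreK` is the statement (K'): a Kummer class of level `q² M₀` which is defined over a number field
unramified at the place `A` over `q` and whose two norms to level `q M₀` are trivial is killed by
an integer `c` depending only on `q` and `M₀`.
-/

set_option autoImplicit false
set_option synthInstance.maxHeartbeats 400000

noncomputable section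

namespace Fermat.Agent.GT

open Fermat.Agent.GR Fermat.Agent.GR.E ModularCurve AlgebraicCurve IntermediateField

/-- The field norm `FF K N' → FF K N` for `N ∣ N'`. -/
def normFF (K : Type*) [Field K] {N N' : ℕ} (h : N ∣ N') (u : FF K N') : FF K N :=
  letI : Algebra (FF K N) (FF K N') :=
    (IntermediateField.inclusion (BR8_FF_le K h)).toRingHom.toAlgebra
  Algebra.norm (FF K N) u

/-- `q` is a uniformizer of the valuation ring `A ∩ L`. -/
def UnramAt (A : ValuationSubring Qb) (q : ℕ) (L : IntermediateField ℚ Qb) : Prop :=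
  ∀ x : L, algebraMap L Qb x ∈ A.nonunits → algebraMap L Qb x / (q : Qb) ∈ A

/-- THE CORE THEOREM (K') of project GT. -/
def CoreK : Prop :=
  ∀ (q : ℕ) [NeZero q], q.Prime → ∀ M0 : ℕ, M0 ≠ 0 → ¬ q ∣ M0 →
    ∃ c : ℕ, 0 < c ∧
      ∀ A : ValuationSubring Qb, A.LiesOverPrime q →
      ∀ (L : IntermediateField ℚ Qb) [FiniteDimensional ℚ L], UnramAt A q L →
      ∀ n : ℕ, ¬ q ∣ n → ∀ ζ : Qbˣ, IsPrimitiveRoot ζ q →
      ∀ (u : LaurentSeries Qb) (hu : u ∈ FF Qb (q ^ 2 * M0)), BR3_DefOver (q ^ 2 * M0) L u →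
        IsKummer (N := q ^ 2 * M0) n u →
        KummerEquiv (q * M0) n 1 (normT q ζ u) →
        KummerEquiv (q * M0) n 1
          ((normFF Qb (N := q * M0) (N' := q ^ 2 * M0) ⟨q, by ring⟩ ⟨u, hu⟩ : FF Qb (q * M0)) :
            LaurentSeries Qb) →
        KummerEquiv (q ^ 2 * M0) n 1 (u ^ c)

/-- `L` is contained in the fixed field of the inertia group of `A`. -/
def InertFixed (A : ValuationSubring Qb) (L : IntermediateField ℚ Qb) : Prop :=
  ∀ τ : Qb ≃ₐ[ℚ] Qb, τ ∈ A.inertiaSubgroupIn ℚ → ∀ x : L, τ (x : Qb) = x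

/-- THE CORE THEOREM (K'), version with `InertFixed` instead of `UnramAt`
(this is the version which is proved by the geometry and consumed by GT-W). -/
def CoreKI : Prop :=
  ∀ (q : ℕ) [NeZero q], q.Prime → ∀ M0 : ℕ, M0 ≠ 0 → ¬ q ∣ M0 →
    ∃ c : ℕ, 0 < c ∧
      ∀ A : ValuationSubring Qb, A.LiesOverPrime q →
      ∀ (L : IntermediateField ℚ Qb) [FiniteDimensional ℚ L], InertFixed A L →
      ∀ n : ℕ, ¬ q ∣ n → ∀ ζ : Qbˣ, IsPrimitiveRoot ζ q →
      ∀ (u : LaurentSeries Qb) (hu : u ∈ FF Qb (q ^ 2 * M0)), BR3_DefOver (q ^ 2 * M0) L u →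
        IsKummer (N := q ^ 2 * M0) n u →
        KummerEquiv (q * M0) n 1 (normT q ζ u) →
        KummerEquiv (q * M0) n 1
          ((normFF Qb (N := q * M0) (N' := q ^ 2 * M0) ⟨q, by ring⟩ ⟨u, hu⟩ : FF Qb (q * M0)) :
            LaurentSeries Qb) →
        KummerEquiv (q ^ 2 * M0) n 1 (u ^ c)

end Fermat.Agent.GT
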