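import Fermat.Agent.GR.C.LinDisj
import Fermat.Agent.GR.E.BR1
import Fermat.Agent.GR.E.BR2
import Fermat.Agent.GR.E.BR3

/-!
# GT-CERT: Galois descent of certificates

`cert_descent`: a certificate over `Q̄` for a function `w` defined over `L` descends to a
certificate over `L` (no enlargement of `L`).
-/

set_option autoImplicit false
set_option synthInstance.maxHeartbeats 400000

noncomputable section

namespace Fermat.Agent.GT.Cert

open Fermat.Agent.GR Fermat.Agent.GR.E ModularCurve AlgebraicCurve IntermediateField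

section Trace

variable {k Ω : Type*} [Field k] [CharZero k] [Field Ω] [Algebra k Ω] [IsAlgClosed Ω]
  [Algebra.IsAlgebraic k Ω]

omit [IsAlgClosed Ω] [Algebra.IsAlgebraic k Ω] [CharZero k] [Algebra k Ω] in
theorem coeff_C_mul (c : Ω) (x : LaurentSeries Ω) (m : ℤ) :
    (HahnSeries.C c * x).coeff m = c * x.coeff m := by
  rw [HahnSeries.C_mul_eq_smul, HahnSeries.coeff_smul, smul_eq_mul]

omit [IsAlgClosed Ω] [Algebra.IsAlgebraic k Ω] [CharZero k] [Algebra k Ω] in
theorem coeffMap_C {Ω' : Type*} [Field Ω'] (φ : Ω →+* Ω') (c : Ω) :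
    coeffMap φ (HahnSeries.C c : LaurentSeries Ω) = HahnSeries.C (φ c) :=
  coeffMap_single φ 0 c

/-- the components of an element of a Galois stable `Ω`-subspace `S` of `Ω((q))` with respect to
a basis of a finite extension of `k` lie in `S`. -/
theorem trace_component (S : Set (LaurentSeries Ω)) (h0 : (0 : LaurentSeries Ω) ∈ S)
    (hadd : ∀ a b, a ∈ S → b ∈ S → a + b ∈ S)
    (hC : ∀ (c : Ω) (a : LaurentSeries Ω), a ∈ S → HahnSeries.C c * a ∈ S)
    (hgal : ∀ (τ : Ω →ₐ[k] Ω) (a : LaurentSeries Ω), a ∈ S → coeffMap (τ : Ω →+* Ω) a ∈ S)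
    (M : IntermediateField k Ω) [FiniteDimensional k M] {κ : Type*} [Fintype κ] [DecidableEq κ]
    (e : Module.Basis κ k M) (f : κ → LaurentSeries k)
    (ha : ∑ i, HahnSeries.C (e i : Ω) * coeffMap (algebraMap k Ω) (f i) ∈ S) (j : κ) :
    coeffMap (algebraMap k Ω) (f j) ∈ S := by
  classical
  set e' := (Algebra.traceForm k M).dualBasis (traceForm_nondegenerate k M) e with he'
  have hext : ∀ σ : M →ₐ[k] Ω, ∃ τ : Ω →ₐ[k] Ω, ∀ x : M, τ (x : Ω) = σ x := by
    intro σ
    obtain ⟨τ, hτ⟩ := IsAlgClosed.surjective_domRestrict_of_isAlgebraic (K := k) (L := M) (M := Ω)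
      (E := Ω) σ
    exact ⟨τ, fun x => by rw [← hτ]; rfl⟩
  choose τ hτ using hext
  have key : coeffMap (algebraMap k Ω) (f j) = ∑ σ : M →ₐ[k] Ω, HahnSeries.C (σ (e' j)) *
      coeffMap ((τ σ : Ω →ₐ[k] Ω) : Ω →+* Ω)
        (∑ i, HahnSeries.C (e i : Ω) * coeffMap (algebraMap k Ω) (f i)) := by
    have hin : ∀ σ : M →ₐ[k] Ω, coeffMap ((τ σ : Ω →ₐ[k] Ω) : Ω →+* Ω)
        (∑ i, HahnSeries.C (e i : Ω) * coeffMap (algebraMap k Ω) (f i)) =
        ∑ i, HahnSeries.C (σ (e i)) * coeffMap (algebraMap k Ω) (f i) := by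
      intro σ
      rw [map_sum]
      refine Finset.sum_congr rfl fun i _ => ?_
      rw [map_mul, coeffMap_C, coeffMap_coeffMap]
      congr 1
      · congr 1
        exact hτ σ (e i)
      · apply coeffMap_congr
        ext c
        exact (τ σ).commutes c
    simp only [hin]
    ext m
    rw [HahnSeries.coeff_sum]
    simp only [coeff_C_mul, coeffMap_coeff, HahnSeries.coeff_sum, Finset.mul_sum]
    rw [Finset.sum_comm]
    have h3 : ∀ i, ∑ σ : M →ₐ[k] Ω, σ (e' j) * (σ (e i) * algebraMap k Ω ((f i).coeff m)) =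
        (if i = j then 1 else 0) * algebraMap k Ω ((f i).coeff m) := by
      intro i
      have h4 := trace_eq_sum_embeddings (K := k) (L := M) Ω (x := e' j * e i)
      have h5 : Algebra.trace k M (e' j * e i) = if i = j then 1 else 0 := by
        have := LinearMap.BilinForm.apply_dualBasis_left (traceForm_nondegenerate k M) e j i
        rwa [Algebra.traceForm_apply] at this
      rw [h5] at h4
      simp only [map_mul] at h4
      simp only [← mul_assoc]
      rw [← Finset.sum_mul, ← h4]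
      split_ifs <;> simp
    simp only [h3]
    simp
  rw [key]
  refine Finset.sum_induction _ (· ∈ S) hadd h0 fun σ _ => hC _ _ (hgal _ _ ha)

end Trace

section Level

variable {k Ω : Type*} [Field k] [Field Ω] [Algebra k Ω]

/-- all coefficients of `u` lie in `M`. -/
def DefOver (M : IntermediateField k Ω) (u : LaurentSeries Ω) : Prop :=
  ∃ u' : LaurentSeries M, coeffMap (algebraMap M Ω) u' = u

theorem DefOver.mono {M M' : IntermediateField k Ω} (h : M ≤ M') {u : LaurentSeries Ω}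
    (hu : DefOver M u) : DefOver M' u := by
  obtain ⟨u', rfl⟩ := hu
  refine ⟨coeffMap (IntermediateField.inclusion h).toRingHom u', ?_⟩
  rw [coeffMap_coeffMap]
  apply coeffMap_congr
  ext x
  rfl

theorem exists_defOver [Algebra.IsAlgebraic k Ω] (N : ℕ) {u : LaurentSeries Ω} (hu : u ∈ FF Ω N) :
    ∃ M : IntermediateField k Ω, FiniteDimensional k M ∧ DefOver M u := by
  induction hu using IntermediateField.adjoin_induction with
  | mem x hx =>
    obtain ⟨d, hd, hdN, rfl⟩ := hx
    refine ⟨⊥, inferInstance, qExpand _ d (jqModC _), ?_⟩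
    rw [coeffMap_qExpand, coeffMap_jqModC]
  | algebraMap c =>
    refine ⟨k⟮c⟯, IntermediateField.adjoin.finiteDimensional
      (Algebra.IsAlgebraic.isAlgebraic c).isIntegral,
      algebraMap _ _ (⟨c, mem_adjoin_simple_self k c⟩ : k⟮c⟯), ?_⟩
    rw [algebraMap_laurentSeries_eq_single, algebraMap_laurentSeries_eq_single, coeffMap_single]
    rfl
  | add x y _ _ hx hy =>
    obtain ⟨L₁, h₁, hx⟩ := hx
    obtain ⟨L₂, h₂, hy⟩ := hy
    obtain ⟨x', rfl⟩ := hx.mono (le_sup_left : L₁ ≤ L₁ ⊔ L₂)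
    obtain ⟨y', rfl⟩ := hy.mono (le_sup_right : L₂ ≤ L₁ ⊔ L₂)
    exact ⟨L₁ ⊔ L₂, IntermediateField.finiteDimensional_sup L₁ L₂, x' + y', map_add _ _ _⟩
  | inv x _ hx =>
    obtain ⟨L₁, h₁, x', rfl⟩ := hx
    exact ⟨L₁, h₁, x'⁻¹, map_inv₀ _ _⟩
  | mul x y _ _ hx hy =>
    obtain ⟨L₁, h₁, hx⟩ := hx
    obtain ⟨L₂, h₂, hy⟩ := hy
    obtain ⟨x', rfl⟩ := hx.mono (le_sup_left : L₁ ≤ L₁ ⊔ L₂)
    obtain ⟨y', rfl⟩ := hy.mono (le_sup_right : L₂ ≤ L₁ ⊔ L₂)
    exact ⟨L₁ ⊔ L₂, IntermediateField.finiteDimensional_sup L₁ L₂, x' * y', map_mul _ _ _⟩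

theorem exists_defOver_family [Algebra.IsAlgebraic k Ω] (N : ℕ) {ι : Type*} [Finite ι]
    (u : ι → LaurentSeries Ω) (hu : ∀ i, u i ∈ FF Ω N) :
    ∃ M : IntermediateField k Ω, FiniteDimensional k M ∧ ∀ i, DefOver M (u i) := by
  choose M hM hu' using fun i => exists_defOver (k := k) N (hu i)
  exact ⟨⨆ i, M i, IntermediateField.finiteDimensional_iSup_of_finite,
    fun i => (hu' i).mono (le_iSup M i)⟩

theorem exists_components (M : IntermediateField k Ω) {κ : Type*} [Fintype κ]
    (e : Module.Basis κ k M) {u : LaurentSeries Ω} (hu : DefOver M u) :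
    ∃ f : κ → LaurentSeries k,
      u = ∑ i, HahnSeries.C (e i : Ω) * coeffMap (algebraMap k Ω) (f i) := by
  obtain ⟨u', rfl⟩ := hu
  refine ⟨fun i => u'.map (e.coord i), ?_⟩
  ext m
  rw [HahnSeries.coeff_sum]
  simp only [coeff_C_mul, coeffMap_coeff, HahnSeries.map_coeff]
  have h := congrArg (algebraMap M Ω) (e.sum_repr (u'.coeff m))
  rw [← h, map_sum]
  refine Finset.sum_congr rfl fun i _ => ?_
  rw [Algebra.smul_def, map_mul, mul_comm]
  rfl

end Level

section Integral

theorem isIntegral_root_add {A F : Type*} [CommRing A] [CommRing F] [Algebra A F] {n : ℕ}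
    (hn : 0 < n) {w a b : F} (ha : IsIntegral A (a ^ n * w)) (hb : IsIntegral A (b ^ n * w)) :
    IsIntegral A ((a + b) ^ n * w) := by
  rw [add_pow, Finset.sum_mul]
  refine IsIntegral.sum _ fun i hi => ?_
  have hi' : i ≤ n := Nat.lt_succ_iff.1 (Finset.mem_range.1 hi)
  have h1 : IsIntegral A (a ^ i * b ^ (n - i) * w) := by
    apply IsIntegral.of_pow hn
    have h2 : (a ^ i * b ^ (n - i) * w) ^ n = (a ^ n * w) ^ i * (b ^ n * w) ^ (n - i) := by
      have hw : w ^ n = w ^ i * w ^ (n - i) := by rw [← pow_add, Nat.add_sub_cancel' hi']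
      rw [mul_pow, mul_pow, mul_pow, mul_pow, hw, ← pow_mul, ← pow_mul, ← pow_mul, ← pow_mul,
        mul_comm i n, mul_comm (n - i) n]
      ring
    rw [h2]
    exact (ha.pow _).mul (hb.pow _)
  have h3 : a ^ i * b ^ (n - i) * (n.choose i : F) * w
      = (n.choose i : F) * (a ^ i * b ^ (n - i) * w) := by ring
  rw [h3]
  exact (isIntegral_natCast _).mul h1

theorem isIntegral_adjoin_map {K₁ F₁ K₂ F₂ : Type*} [Field K₁] [Field F₁] [Algebra K₁ F₁]
    [Field K₂] [Field F₂] [Algebra K₂ F₂] (i : K₁ →+* K₂) (φ : F₁ →+* F₂)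
    (hconst : ∀ c, φ (algebraMap K₁ F₁ c) = algebraMap K₂ F₂ (i c)) (h u : F₁)
    (hu : IsIntegral (Algebra.adjoin K₁ ({h} : Set F₁)) u) :
    IsIntegral (Algebra.adjoin K₂ ({φ h} : Set F₂)) (φ u) := by
  set A := Algebra.adjoin K₁ ({h} : Set F₁) with hA
  set B := Algebra.adjoin K₂ ({φ h} : Set F₂) with hB
  have hAB : ∀ a : A, φ.comp (algebraMap A F₁) a ∈ B := by
    rintro ⟨a, ha⟩
    change φ a ∈ B
    induction ha using Algebra.adjoin_induction with
    | mem x hx =>
      rw [Set.mem_singleton_iff.mp hx]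
      exact Algebra.subset_adjoin (Set.mem_singleton _)
    | algebraMap c => rw [hconst]; exact B.algebraMap_mem _
    | add x y _ _ hx hy => rw [map_add]; exact add_mem hx hy
    | mul x y _ _ hx hy => rw [map_mul]; exact mul_mem hx hy
  let ψ : A →+* B := (φ.comp (algebraMap A F₁)).codRestrict B hAB
  exact hu.map_of_comp_eq ψ φ (RingHom.ext fun _ => rfl)

theorem certificate_of_fintype {K F : Type*} [Field K] [Field F] [Algebra K F] {x : F} {n : ℕ}
    {w : F} {I : Type*} [Fintype I] (a b : I → F)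
    (ha : ∀ i, IsIntegral (Algebra.adjoin K ({x} : Set F)) (a i ^ n * w))
    (hb : ∀ i, IsIntegral (Algebra.adjoin K ({x} : Set F)) (b i ^ n * w⁻¹))
    (hsum : ∑ i, a i * b i = 1) : Certificate K x n w := by
  let e := Fintype.equivFin I
  refine ⟨Fintype.card I, a ∘ e.symm, b ∘ e.symm, fun i => ha _, fun i => hb _, ?_⟩
  rw [← hsum]
  exact Equiv.sum_comp e.symm (fun i => a i * b i)

end Integral

section Main

variable {k Ω : Type*} [Field k] [Field Ω] [Algebra k Ω]

theorem apply_lam {I : Type*} [Fintype I] (c : I → Ω) (x : I → LaurentSeries k)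
    (y : LaurentSeries k)
    (h : ∑ i, HahnSeries.C (c i) * coeffMap (algebraMap k Ω) (x i) = coeffMap (algebraMap k Ω) y)
    (lam : Ω →ₗ[k] k) (hlam : ∀ r, lam (algebraMap k Ω r) = r) :
    ∑ i, HahnSeries.C (lam (c i)) * x i = y := by
  ext m
  have h1 := congrArg (fun z : LaurentSeries Ω => lam (z.coeff m)) h
  simp only [HahnSeries.coeff_sum, coeff_C_mul, coeffMap_coeff, map_sum, hlam] at h1
  rw [HahnSeries.coeff_sum, ← h1]
  refine Finset.sum_congr rfl fun i _ => ?_
  rw [coeff_C_mul, mul_comm (c i), ← Algebra.smul_def, map_smul, smul_eq_mul, mul_comm]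

/-- the set of `n`-th roots of the fractional ideal `(w')⁻¹`, as a set of Laurent series. -/
def rootS (N n : ℕ) (h w' : FF Ω N) : Set (LaurentSeries Ω) :=
  {a | ∃ ha : a ∈ FF Ω N,
    IsIntegral (Algebra.adjoin Ω ({h} : Set (FF Ω N))) ((⟨a, ha⟩ : FF Ω N) ^ n * w')}

theorem mapFF_mapFF (τ : Ω →ₐ[k] Ω) (N : ℕ) (x : FF k N) :
    mapFF (τ : Ω →+* Ω) N (mapFF (algebraMap k Ω) N x) = mapFF (algebraMap k Ω) N x := by
  apply Subtype.ext
  rw [coe_mapFF, coe_mapFF, coeffMap_coeffMap]
  apply coeffMap_congr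
  ext c
  exact τ.commutes c

theorem component_mem [CharZero k] [IsAlgClosed Ω] [Algebra.IsAlgebraic k Ω] (N n : ℕ)
    (hn : 0 < n) (h w' : FF k N)
    (M : IntermediateField k Ω) [FiniteDimensional k M] {κ : Type*} [Fintype κ]
    (e : Module.Basis κ k M) (f : κ → LaurentSeries k)
    (ha : ∑ i, HahnSeries.C (e i : Ω) * coeffMap (algebraMap k Ω) (f i) ∈
      rootS N n (mapFF (algebraMap k Ω) N h) (mapFF (algebraMap k Ω) N w')) (j : κ) :
    ∃ hf : f j ∈ FF k N,
      IsIntegral (Algebra.adjoin k ({h} : Set (FF k N))) ((⟨f j, hf⟩ : FF k N) ^ n * w') := by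
  classical
  have key := trace_component (k := k)
    (rootS N n (mapFF (algebraMap k Ω) N h) (mapFF (algebraMap k Ω) N w')) ?_ ?_ ?_ ?_ M e f ha j
  · obtain ⟨hmem, hint⟩ := key
    have hf : f j ∈ FF k N := C.mem_FF_of_coeffMap_mem hmem
    refine ⟨hf, ?_⟩
    refine BR3_descent_aux (algebraMap k Ω) (mapFF (algebraMap k Ω) N) ?_ ?_ h _ ?_
    · intro c
      apply Subtype.ext
      change coeffMap (algebraMap k Ω) (algebraMap k (LaurentSeries k) c) =
        algebraMap Ω (LaurentSeries Ω) (algebraMap k Ω c)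
      rw [algebraMap_laurentSeries_eq_single, algebraMap_laurentSeries_eq_single, coeffMap_single]
    · intro c
      exact (Algebra.IsAlgebraic.isAlgebraic (R := k) c).isIntegral
    · rw [map_mul, map_pow]
      exact hint
  · refine ⟨zero_mem _, ?_⟩
    have : (⟨0, zero_mem _⟩ : FF Ω N) = 0 := rfl
    rw [this, zero_pow hn.ne', zero_mul]
    exact isIntegral_zero
  · rintro a b ⟨ha, ha'⟩ ⟨hb, hb'⟩
    refine ⟨add_mem ha hb, ?_⟩
    have h1 : (⟨a + b, add_mem ha hb⟩ : FF Ω N) = ⟨a, ha⟩ + ⟨b, hb⟩ := rfl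
    rw [h1]
    exact isIntegral_root_add hn ha' hb'
  · rintro c a ⟨ha, ha'⟩
    refine ⟨mul_mem (C.C_mem_intermediateField c) ha, ?_⟩
    have h1 : (⟨HahnSeries.C c * a, mul_mem (C.C_mem_intermediateField c) ha⟩ : FF Ω N) =
        algebraMap Ω (FF Ω N) c * ⟨a, ha⟩ := by
      apply Subtype.ext
      change HahnSeries.C c * a = algebraMap Ω (LaurentSeries Ω) c * a
      rw [algebraMap_laurentSeries_eq_single]
      rfl
    rw [h1, mul_pow, mul_assoc]
    refine IsIntegral.mul (IsIntegral.pow ?_ _) ha'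
    exact isIntegral_algebraMap (R := Algebra.adjoin Ω
      ({mapFF (algebraMap k Ω) N h} : Set (FF Ω N))) (x := algebraMap Ω _ c)
  · rintro τ a ⟨ha, ha'⟩
    refine ⟨E.coeffMap_mem_FF _ N ha, ?_⟩
    have h1 := isIntegral_adjoin_map (τ : Ω →+* Ω) (mapFF (τ : Ω →+* Ω) N) ?_ _ _ ha'
    · rw [mapFF_mapFF, map_mul, map_pow, mapFF_mapFF] at h1
      exact h1
    · intro c
      apply Subtype.ext
      change coeffMap (τ : Ω →+* Ω) (algebraMap Ω (LaurentSeries Ω) c) =
        algebraMap Ω (LaurentSeries Ω) (τ c)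
      rw [algebraMap_laurentSeries_eq_single, algebraMap_laurentSeries_eq_single, coeffMap_single]
      rfl

/-- Galois descent of certificates, general form. -/
theorem cert_descent_gen [CharZero k] [IsAlgClosed Ω] [Algebra.IsAlgebraic k Ω] (N n : ℕ)
    (hn : 0 < n) (h w : FF k N)
    (c : Certificate Ω (mapFF (algebraMap k Ω) N h) n (mapFF (algebraMap k Ω) N w)) :
    Certificate k h n w := by
  classical
  obtain ⟨m, a, b, ha, hb, hsum⟩ := c
  obtain ⟨M, hM, hdef⟩ := exists_defOver_family (k := k) N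
    (Sum.elim (fun i => (a i : LaurentSeries Ω)) (fun i => (b i : LaurentSeries Ω)))
    (by rintro (i | i); exacts [(a i).2, (b i).2])
  let e := Module.finBasis k M
  choose fa hfa using fun i => exists_components M e (hdef (Sum.inl i))
  choose fb hfb using fun i => exists_components M e (hdef (Sum.inr i))
  simp only [Sum.elim_inl, Sum.elim_inr] at hfa hfb
  have hA : ∀ i j, ∃ hf : fa i j ∈ FF k N,
      IsIntegral (Algebra.adjoin k ({h} : Set (FF k N))) ((⟨fa i j, hf⟩ : FF k N) ^ n * w) := by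
    intro i j
    refine component_mem N n hn h w M e (fa i) ?_ j
    rw [← hfa i]
    exact ⟨(a i).2, ha i⟩
  have hB : ∀ i j, ∃ hf : fb i j ∈ FF k N,
      IsIntegral (Algebra.adjoin k ({h} : Set (FF k N))) ((⟨fb i j, hf⟩ : FF k N) ^ n * w⁻¹) := by
    intro i j
    refine component_mem N n hn h w⁻¹ M e (fb i) ?_ j
    rw [← hfb i, map_inv₀]
    exact ⟨(b i).2, hb i⟩
  choose hAm hAi using hA
  choose hBm hBi using hB
  obtain ⟨lam, hlam⟩ := LinearMap.exists_leftInverse_of_injective (Algebra.linearMap k Ω)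
    (LinearMap.ker_eq_bot.2 (algebraMap k Ω).injective)
  have hlam' : ∀ r, lam (algebraMap k Ω r) = r := fun r => LinearMap.congr_fun hlam r
  refine certificate_of_fintype (I := Fin m × Fin (Module.finrank k M) × Fin (Module.finrank k M))
    (fun t => algebraMap k (FF k N) (lam ((e t.2.1 : Ω) * (e t.2.2 : Ω))) * ⟨fa t.1 t.2.1, hAm _ _⟩)
    (fun t => ⟨fb t.1 t.2.2, hBm _ _⟩) ?_ ?_ ?_
  · intro t
    rw [mul_pow, mul_assoc]
    refine IsIntegral.mul (IsIntegral.pow ?_ _) (hAi _ _)
    exact isIntegral_algebraMap (R := Algebra.adjoin k ({h} : Set (FF k N)))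
      (x := algebraMap k _ (lam ((e t.2.1 : Ω) * (e t.2.2 : Ω))))
  · intro t
    exact hBi _ _
  · apply Subtype.ext
    have h1 := apply_lam (k := k) (Ω := Ω)
      (I := Fin m × Fin (Module.finrank k M) × Fin (Module.finrank k M))
      (fun t => (e t.2.1 : Ω) * (e t.2.2 : Ω)) (fun t => fa t.1 t.2.1 * fb t.1 t.2.2) 1 ?_ lam hlam'
    · rw [AddSubmonoidClass.coe_finsetSum]
      refine Eq.trans ?_ h1
      refine Finset.sum_congr rfl fun t _ => ?_
      change algebraMap k (LaurentSeries k) _ * fa t.1 t.2.1 * fb t.1 t.2.2 = _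
      rw [algebraMap_laurentSeries_eq_single, mul_assoc]
      rfl
    · have h2 := congrArg (fun x : FF Ω N => (x : LaurentSeries Ω)) hsum
      simp only [AddSubmonoidClass.coe_finsetSum, MulMemClass.coe_mul] at h2
      rw [map_one]
      refine Eq.trans ?_ h2
      rw [Fintype.sum_prod_type]
      refine Finset.sum_congr rfl fun i _ => ?_
      rw [hfa i, hfb i, Finset.sum_mul_sum, Fintype.sum_prod_type]
      refine Finset.sum_congr rfl fun j _ => Finset.sum_congr rfl fun l _ => ?_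
      rw [map_mul, map_mul]
      ring

end Main

/-- **CERT**: a certificate over `Q̄` for `w ∈ FF L N` descends to `L` itself. -/
theorem cert_descent (L : IntermediateField ℚ Qb) (N n : ℕ) (hn : 0 < n) (h w : FF L N)
    (c : Certificate Qb (mapFF (algebraMap L Qb) N h) n (mapFF (algebraMap L Qb) N w)) :
    Certificate L h n w := by
  have : Algebra.IsAlgebraic ℚ Qb := AlgebraicClosure.isAlgebraic ℚ
  have : Algebra.IsAlgebraic L Qb := Algebra.IsAlgebraic.tower_top (K := ℚ) L
  exact cert_descent_gen N n hn h w c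

theorem adjoin_inv_eq {K F : Type*} [Field K] [Field F] [Algebra K F] (x : F) :
    K⟮x⁻¹⟯ = K⟮x⟯ := by
  apply le_antisymm
  · rw [adjoin_simple_le_iff]
    exact inv_mem (mem_adjoin_simple_self K x)
  · rw [adjoin_simple_le_iff]
    have h2 : (x⁻¹)⁻¹ ∈ K⟮x⁻¹⟯ := inv_mem (mem_adjoin_simple_self K _)
    rwa [inv_inv] at h2

/-- A Kummer function defined over `L` has certificates over `L` on both charts of any base
function `h` defined over `L`. -/
theorem certificate_of_isKummer (L : IntermediateField ℚ Qb) (N n : ℕ) (hn : 0 < n)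
    (h w : FF L N) (ht : Transcendental Qb (mapFF (algebraMap L Qb) N h))
    (hfin : FiniteDimensional Qb⟮mapFF (algebraMap L Qb) N h⟯ (FF Qb N))
    (hK : IsKummer (N := N) n (coeffMap (algebraMap L Qb) (w : LaurentSeries L))) :
    Certificate L h n w ∧ Certificate L h⁻¹ n w := by
  obtain ⟨h0, hmem, hdiv⟩ := hK
  have hw0 : mapFF (algebraMap L Qb) N w ≠ 0 := fun h1 => h0 (congrArg Subtype.val h1)
  constructor
  · exact cert_descent L N n hn h w (exists_certificate _ ht n hn _ hw0 hdiv)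
  · apply cert_descent L N n hn h⁻¹ w
    rw [map_inv₀]
    have : FiniteDimensional Qb⟮(mapFF (algebraMap L Qb) N h)⁻¹⟯ (FF Qb N) := by
      rw [adjoin_inv_eq]
      exact hfin
    exact exists_certificate _ (fun h1 => ht (IsAlgebraic.inv_iff.1 h1)) n hn _ hw0 hdiv

/-- A Kummer function defined over `L` is divisible at all places of the generic fibre over `L`
(no enlargement of `L`). -/
theorem divisibleAtPlaces_of_isKummer (L : IntermediateField ℚ Qb) (R : ValuationSubring L)
    (N n : ℕ) (hn : 0 < n)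
    (h w : FF L N) (ht : Transcendental Qb (mapFF (algebraMap L Qb) N h))
    (hfin : FiniteDimensional Qb⟮mapFF (algebraMap L Qb) N h⟯ (FF Qb N))
    (hK : IsKummer (N := N) n (coeffMap (algebraMap L Qb) (w : LaurentSeries L))) :
    DivisibleAtPlaces R n w := by
  obtain ⟨c0, c1⟩ := certificate_of_isKummer L N n hn h w ht hfin hK
  exact divisibleAtPlaces_of_certificate R h n w c0 c1

end Fermat.Agent.GT.Cert
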